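import Fermat.Agent.ML.At2.Aut9.Red

/-!
# ML / AT-2 / (E1) : reduction of an automorphism of `F_M`  [AUT9-RED]
-/

set_option autoImplicit false
set_option linter.unusedSectionVars false
set_option synthInstance.maxHeartbeats 400000

noncomputable section

open AlgebraicCurve ModularCurve Polynomial

namespace Fermat.Agent.ML.At2

open Fermat.Agent.RED Fermat.Agent.RED.Gauss Fermat.Agent.S24 Fermat.Agent.S28

variable {ℓ : ℕ} [Fact ℓ.Prime] {M : ℕ} [NeZero M] {A : ValuationSubring Kb}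
variable {hA : A.LiesOverPrime ℓ} {hℓM : ¬ ℓ ∣ M}

local notation "kA" => IsLocalRing.ResidueField A
local notation "πA" => IsLocalRing.residue A

/-! ### automorphisms -/

section Aut

theorem constCompat_refl {K F k Fb : Type*} [Field K] [Field F] [Algebra K F] [Field k] [Field Fb]
    [Algebra k Fb] (R : RedData K F k Fb) : ConstCompat R R :=
  fun _ hc => ⟨hc, fun _ h => h⟩

variable (hA hℓM) in
/-- an automorphism `γ` of `F_M / ℚ̄` such that `γ j` and `γ⁻¹ j` are integral with transcendental reduction. -/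
structure IsGoodAut (γ : FN M ≃ₐ[Kb] FN M) : Prop where
  mem : γ (jF M) ∈ (gaussData A M hA hℓM).O
  tr : Transcendental kA ((gaussData A M hA hℓM).red ⟨γ (jF M), mem⟩)
  mem' : γ.symm (jF M) ∈ (gaussData A M hA hℓM).O
  tr' : Transcendental kA ((gaussData A M hA hℓM).red ⟨γ.symm (jF M), mem'⟩)

variable {γ : FN M ≃ₐ[Kb] FN M} (hγ : IsGoodAut hA hℓM γ)

include hγ in
theorem IsGoodAut.symm : IsGoodAut hA hℓM γ.symm :=
  ⟨hγ.mem', hγ.tr', hγ.mem, hγ.tr⟩

include hγ in
theorem IsGoodAut.forms : HasForms (gaussData A M hA hℓM) (gaussData A M hA hℓM) (γ : FN M →ₐ[Kb] FN M) :=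
  hasForms_of_transcendental (constCompat_refl _) (γ : FN M →ₐ[Kb] FN M) hγ.mem hγ.tr

include hγ in
theorem IsGoodAut.map_mem {x : FN M} (hx : x ∈ (gaussData A M hA hℓM).O) :
    γ x ∈ (gaussData A M hA hℓM).O :=
  hγ.forms.map_mem (constCompat_refl _) hx

/-- the reduction of `γ`, as a homomorphism -/
def IsGoodAut.redHom : modularFunctionFieldFullC kA M →ₐ[kA] modularFunctionFieldFullC kA M :=
  hγ.forms.redHom (constCompat_refl _)

theorem IsGoodAut.redHom_red {x : FN M} (hx : x ∈ (gaussData A M hA hℓM).O) :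
    hγ.redHom ((gaussData A M hA hℓM).red ⟨x, hx⟩) =
      (gaussData A M hA hℓM).red ⟨γ x, hγ.map_mem hx⟩ :=
  hγ.forms.redHom_red (constCompat_refl _) hx

theorem IsGoodAut.redHom_symm_redHom (w : modularFunctionFieldFullC kA M) :
    hγ.symm.redHom (hγ.redHom w) = w := by
  obtain ⟨x, rfl⟩ := (gaussData A M hA hℓM).red_surjective w
  rw [hγ.redHom_red x.2, hγ.symm.redHom_red]
  exact congrArg _ (Subtype.ext (γ.symm_apply_apply _))

/-- **the reduction of `γ`.** -/
def IsGoodAut.redAut : modularFunctionFieldFullC kA M ≃ₐ[kA] modularFunctionFieldFullC kA M :=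
  AlgEquiv.ofAlgHom hγ.redHom hγ.symm.redHom
    (AlgHom.ext fun w => hγ.symm.redHom_symm_redHom w)
    (AlgHom.ext fun w => hγ.redHom_symm_redHom w)

theorem IsGoodAut.redAut_red {x : FN M} (hx : x ∈ (gaussData A M hA hℓM).O) :
    hγ.redAut ((gaussData A M hA hℓM).red ⟨x, hx⟩) =
      (gaussData A M hA hℓM).red ⟨γ x, hγ.map_mem hx⟩ :=
  hγ.redHom_red hx

/-- **[AUT9-RED]**, `Compat` form. -/
theorem IsGoodAut.compat : GalEq.Compat (gaussData A M hA hℓM) (SemilinearAut.ofAlgAut γ)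
    (SemilinearAut.ofAlgAut hγ.redAut) where
  mem _ hx := hγ.map_mem hx
  red _ hx := (hγ.redAut_red hx).symm

end Aut

end Fermat.Agent.ML.At2
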