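import Fermat.Agent.ML.At2.Aut9.Aut
import Fermat.Agent.RIB.Lift.Rel
import Fermat.Agent.RED.S37.GalEq

/-!
# ML / AT-2 / (E1) : the reduction map `J₀(M) → J₀(M)_k` commutes with every good automorphism  [AUT9-PIC], [AUT9-INV]
-/

set_option autoImplicit false
set_option linter.unusedSectionVars false
set_option synthInstance.maxHeartbeats 400000
set_option maxHeartbeats 1600000

noncomputable section

open AlgebraicCurve AlgebraicCurve.SemilinearAut ModularCurve

namespace Fermat.Agent.ML.At2

open Fermat.Agent.RED hiding Kb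
open Fermat.Agent.S24

variable {ℓ : ℕ} [Fact ℓ.Prime] {M : ℕ} [NeZero M] {A : ValuationSubring Kb}
variable {hA : A.LiesOverPrime ℓ} {hℓM : ¬ ℓ ∣ M}

local notation "kA" => IsLocalRing.ResidueField A
local notation "FbA" => modularFunctionFieldFullC (IsLocalRing.ResidueField A) M

variable (h49 : 4 ∣ M ∨ 9 ∣ M) (h : ReductionInputsModL A M)
variable {γ : FN M ≃ₐ[Kb] FN M} (hγ : IsGoodAut hA hℓM γ)

include h49 in
/-- the reduction of places is equivariant. -/
theorem IsGoodAut.placeReduction_smul (P : Place Kb (FN M)) :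
    placeReductionModL h (ofAlgAut γ • P) = ofAlgAut hγ.redAut • placeReductionModL h P := by
  have : IsAlgClosed kA := GalEq.isAlgClosed_residueField A
  have : CharP kA ℓ := GalEq.charP_residueField Fact.out hA
  have G := MAZ.good_placeReductionModL M A hA hℓM h49 h
  have hx := isSepParam_jF_galEq M
  obtain ⟨P₁, P₂, hne⟩ := GalEq.exists_ne_of_isPlaceReduction hx
    (Cusp.isSepParam_jb M kA ℓ hℓM) (isPlaceReductionModL_placeReductionModL h)
  have : Nontrivial (Place kA FbA) := ⟨_, _, hne⟩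
  exact GalEq.placeMap_smul_of G.p1 G.surj (GalEq.hasEffRep_of_isSepParam hx P)
    (GalEq.cnt_eq_zero_of_isSepParam hx) hγ.compat P

include h49 h in
/-- **[AUT9-PIC]** -/
theorem IsGoodAut.reductionModL_smul (x : JZero M) :
    reductionModL A M (ofAlgAut γ • x) = ofAlgAut hγ.redAut • reductionModL A M x := by
  obtain ⟨D, rfl⟩ := Pic0.mk_surjective x
  have e1 : ofAlgAut γ • (Pic0.mk D : JZero M) = Pic0.mk (degZeroSMulHom (ofAlgAut γ) D) :=
    pic0_smul_mk _ _
  rw [e1, reductionModL_mk h, reductionModL_mk h]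
  have e2 := pic0_smul_mk (ofAlgAut hγ.redAut) (reductionDegZeroAlong (placeReductionModL h)
        (isPlaceReductionModL_placeReductionModL h).1 D)
  refine Eq.trans ?_ e2.symm
  refine congrArg Pic0.mk (Subtype.ext ?_)
  rw [coe_reductionDegZeroAlong, coe_degZeroSMulHom, coe_degZeroSMulHom,
    coe_reductionDegZeroAlong]
  exact GalEq.mapDomain_smul_of_placeMap (hγ.placeReduction_smul h49 h) _

include h49 h in
/-- `HK.Rel` is compatible with good automorphisms. -/
theorem IsGoodAut.rel {n : ℕ} {w : FbA} {y : JZero M} (hR : HK.Rel n w y) :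
    HK.Rel n (hγ.redAut w) (ofAlgAut γ • y) := by
  obtain ⟨hw, E, hE, hy⟩ := hR
  refine ⟨by simpa using hw, degZeroSMulHom (ofAlgAut hγ.redAut) E, fun Q => ?_, ?_⟩
  · rw [coe_degZeroSMulHom, divisor_smul_apply, hE, GalEq.ord_inv_smul_place]
    rfl
  · rw [hγ.reductionModL_smul h49 h, hy]
    exact pic0_smul_mk _ _

include h49 h in
/-- **[AUT9-INV]** : the torsion point related to a `γ̄`-invariant function is `γ`-invariant. -/
theorem IsGoodAut.smul_eq_of_rel {n : ℕ} (hn : ¬ ℓ ∣ n) {w : FbA} {y : JZero M}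
    (hy : n • y = 0) (hR : HK.Rel n w y) (hw : hγ.redAut w = w) : ofAlgAut γ • y = y := by
  have h1 := hγ.rel h49 h hR
  rw [hw] at h1
  refine RIB.eq_of_rel_of_torsion hA hℓM h hn ?_ hy h1 hR
  have e := map_nsmul (DistribSMul.toAddMonoidHom (JZero M) (ofAlgAut γ)) n y
  have e' : ofAlgAut γ • (n • y) = n • (ofAlgAut γ • y) := e
  rw [← e', hy]
  exact smul_zero (A := JZero M) (ofAlgAut γ)

end Fermat.Agent.ML.At2
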