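import Fermat.Agent.ML.At2.Aut9.RedAbs
import Fermat.Agent.RED.Gauss.Bridge
import Fermat.Agent.S19.A.Rl

/-!
# ML / AT-2 / (E1) : reduction of an arbitrary homomorphism of modular function fields  [AUT9-RED]
-/

set_option autoImplicit false
set_option linter.unusedSectionVars false
set_option synthInstance.maxHeartbeats 400000

noncomputable section

open AlgebraicCurve ModularCurve Polynomial

namespace Fermat.Agent.ML.At2

open Fermat.Agent.RED Fermat.Agent.RED.Gauss Fermat.Agent.S24 Fermat.Agent.S28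

variable {ℓ : ℕ} [Fact ℓ.Prime] {M : ℕ} [NeZero M] {A : ValuationSubring Kb}
variable {hA : A.LiesOverPrime ℓ} {hℓM : ¬ ℓ ∣ M}

/-- shortcut (instance search is slow here) -/
local instance (priority := 5000) instAlgFbAut9 : Algebra (IsLocalRing.ResidueField A)
    (modularFunctionFieldFullC (IsLocalRing.ResidueField A) M) :=
  SubalgebraClass.toAlgebra (modularFunctionFieldFullC (IsLocalRing.ResidueField A) M)

variable {F' Fb' : Type*} [Field F'] [Algebra Kb F'] [Field Fb']
  [Algebra (IsLocalRing.ResidueField A) Fb']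
variable {R' : RedData Kb F' (IsLocalRing.ResidueField A) Fb'}

local notation "kA" => IsLocalRing.ResidueField A
local notation "πA" => IsLocalRing.residue A

section Const

variable (hC : ConstCompat (gaussData A M hA hℓM) R')

include hC in
theorem ConstCompat.mem_of_mem (c : A) : algebraMap Kb F' (c : Kb) ∈ R'.O :=
  (hC c (algebraMap_mem_gO (gaussNormBar A M hA hℓM) c)).1

include hC in
theorem ConstCompat.red_of_mem (c : A) :
    R'.red ⟨algebraMap Kb F' (c : Kb), hC.mem_of_mem c⟩ = algebraMap kA Fb' (πA c) :=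
  (hC c (algebraMap_mem_gO (gaussNormBar A M hA hℓM) c)).2 _
    (Subtype.ext (gRed_algebraMap (gaussNormBar A M hA hℓM) c))

/-- the constants -/
def ConstCompat.cHom : A →+* R'.O where
  toFun c := ⟨algebraMap Kb F' (c : Kb), hC.mem_of_mem c⟩
  map_one' := Subtype.ext (map_one _)
  map_mul' _ _ := Subtype.ext (map_mul _ _ _)
  map_zero' := Subtype.ext (map_zero _)
  map_add' _ _ := Subtype.ext (map_add _ _ _)

theorem ConstCompat.subtype_comp_cHom :
    R'.O.subtype.comp hC.cHom = (algebraMap Kb F').comp A.subtype := rfl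

theorem ConstCompat.red_comp_cHom :
    R'.red.comp hC.cHom = (algebraMap kA Fb').comp πA :=
  RingHom.ext fun c => hC.red_of_mem c

variable {y : F'} (hy : y ∈ R'.O)

/-- evaluation of integral polynomials -/
def ConstCompat.ev : A[X] →+* R'.O := eval₂RingHom hC.cHom ⟨y, hy⟩

theorem ConstCompat.coe_ev (p : A[X]) :
    ((hC.ev hy p : R'.O) : F') = aeval y (p.map A.subtype) := by
  have h1 : ((hC.ev hy p : R'.O) : F') = R'.O.subtype (eval₂ hC.cHom ⟨y, hy⟩ p) := rfl
  rw [h1, hom_eval₂, hC.subtype_comp_cHom, aeval_def, eval₂_map]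
  rfl

theorem ConstCompat.red_ev (p : A[X]) :
    R'.red (hC.ev hy p) = aeval (R'.red ⟨y, hy⟩) (p.map πA) := by
  have h1 : R'.red (hC.ev hy p) = R'.red (eval₂ hC.cHom ⟨y, hy⟩ p) := rfl
  rw [h1, hom_eval₂, hC.red_comp_cHom, aeval_def, eval₂_map]

end Const

section Forms

variable (hC : ConstCompat (gaussData A M hA hℓM) R') (φ : FN M →ₐ[Kb] F')

/-- `ℤ_(ℓ) → A`. -/
def rlHom (hA : A.LiesOverPrime ℓ) : Rl ℓ →+* A where
  toFun r := ⟨algebraMap (Rl ℓ) Kb r, S19.algebraMap_Rl_mem A hA r⟩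
  map_one' := Subtype.ext (map_one _)
  map_mul' _ _ := Subtype.ext (map_mul _ _ _)
  map_zero' := Subtype.ext (map_zero _)
  map_add' _ _ := Subtype.ext (map_add _ _ _)

include hC in
/-- an element of `F_M` whose series is the base change of a series integral over `ℤ_(ℓ)[j]` is sent into `R'.O`. -/
theorem map_mem_of_intOver (hj : φ (jF M) ∈ R'.O) {v : LaurentSeries ℚ} (hv : IntOver ℓ jq v)
    (hvF : coeffEmb Kb v ∈ modularFunctionFieldBar M) :
    φ ⟨coeffEmb Kb v, hvF⟩ ∈ R'.O := by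
  obtain ⟨P, hP, hev⟩ := hv
  set Ψ : (Rl ℓ)[X] →+* R'.O := (hC.ev hj).comp (mapRingHom (rlHom hA)) with hΨ
  set Ψ₀ : (Rl ℓ)[X] →+* FN M :=
    eval₂RingHom ((algebraMap Kb (FN M)).comp (algebraMap (Rl ℓ) Kb)) (jF M) with hΨ₀
  have hjc : ((jF M : FN M) : LaurentSeries Kb) = coeffEmb Kb jq := by
    show coeffEmb Kb (qExpand ℚ 1 jq) = _
    rw [qExpand_one_apply]
  have e1 : (modularFunctionFieldBar M).val.toRingHom.comp Ψ₀ =
      (coeffEmb Kb).comp ((aeval jq : (Rl ℓ)[X] →ₐ[Rl ℓ] LaurentSeries ℚ) : (Rl ℓ)[X] →+* _) := by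
    refine Polynomial.ringHom_ext (fun a => ?_) ?_
    · simp only [RingHom.comp_apply, hΨ₀, coe_eval₂RingHom, eval₂_C, RingHom.coe_coe, aeval_C]
      have h0 : algebraMap (Rl ℓ) (LaurentSeries ℚ) a =
          algebraMap ℚ (LaurentSeries ℚ) (algebraMap (Rl ℓ) ℚ a) := by
        rw [HahnSeries.algebraMap_apply', PowerSeries.algebraMap_apply,
          HahnSeries.ofPowerSeries_C, algebraMap_laurentSeries_eq_single]
        rfl
      have h1 : (modularFunctionFieldBar M).val.toRingHom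
          ((algebraMap Kb (FN M)) ((algebraMap (Rl ℓ) Kb) a)) =
          algebraMap Kb (LaurentSeries Kb) (algebraMap (Rl ℓ) Kb a) := rfl
      rw [h0, h1, coeffEmb, algebraMap_laurentSeries_eq_single, algebraMap_laurentSeries_eq_single,
        coeffMap_single]
      rfl
    · simp only [RingHom.comp_apply, hΨ₀, coe_eval₂RingHom, eval₂_X, RingHom.coe_coe, aeval_X]
      exact hjc
  have e2 : R'.O.subtype.comp Ψ = φ.toRingHom.comp Ψ₀ := by
    refine Polynomial.ringHom_ext (fun a => ?_) ?_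
    · simp only [RingHom.comp_apply, hΨ₀, hΨ, coe_eval₂RingHom, eval₂_C, coe_mapRingHom, map_C]
      have h0 : φ.toRingHom ((algebraMap Kb (FN M)) ((algebraMap (Rl ℓ) Kb) a)) =
          algebraMap Kb F' (algebraMap (Rl ℓ) Kb a) := AlgHom.commutes φ _
      rw [h0]
      show ((hC.ev hj (C (rlHom hA a)) : R'.O) : F') = _
      rw [hC.coe_ev, map_C, aeval_C]
      rfl
    · simp only [RingHom.comp_apply, hΨ₀, hΨ, coe_eval₂RingHom, eval₂_X, coe_mapRingHom, map_X]
      show ((hC.ev hj X : R'.O) : F') = _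
      rw [hC.coe_ev, Polynomial.map_X, aeval_X]
      rfl
  set vF : FN M := ⟨coeffEmb Kb v, hvF⟩ with hvFdef
  have h1 : eval₂ Ψ₀ vF P = 0 := by
    apply Subtype.ext
    have := congrArg (coeffEmb Kb) hev
    rw [hom_eval₂, ← e1, map_zero] at this
    have h2 : ((eval₂ Ψ₀ vF P : FN M) : LaurentSeries Kb) =
        (modularFunctionFieldBar M).val.toRingHom (eval₂ Ψ₀ vF P) := rfl
    rw [h2, hom_eval₂]
    exact this
  have h2 : eval₂ (R'.O.subtype.comp Ψ) (φ vF) P = 0 := by
    have := congrArg φ.toRingHom h1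
    rw [hom_eval₂, map_zero] at this
    rw [e2]
    exact this
  have h3 : IsIntegral R'.O (φ vF) := by
    refine ⟨P.map Ψ, hP.map Ψ, ?_⟩
    rw [eval₂_map]
    exact h2
  obtain ⟨y, hy⟩ := IsIntegrallyClosed.isIntegral_iff.1 h3
  rw [← hy]
  exact y.2

include hC in
/-- **[AUT9-RED]** : a `ℚ̄`-homomorphism `φ` out of `F_M` such that `φ j` is integral with transcendental reduction has normal forms. -/
theorem hasForms_of_transcendental (hj : φ (jF M) ∈ R'.O)
    (htr : Transcendental kA (R'.red ⟨φ (jF M), hj⟩)) :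
    HasForms (gaussData A M hA hℓM) R' φ := by
  intro x hx0
  have := charP_residueField A hA
  have hπ : Function.Surjective πA := IsLocalRing.residue_surjective
  have hcore := (exists_isCoreExt M ℓ hℓM).choose_spec
  set u := (exists_isCoreExt M ℓ hℓM).choose with hu
  have hn := card_Q_pos M
  have hx0' : (x : LaurentSeries Kb) ≠ 0 := fun h0 => hx0 (Subtype.ext h0)
  obtain ⟨c, p, p', hc, hp, hp', hrel⟩ := exists_normalForm πA hπ hn hcore _ x.2 hx0'
  have H := coreData πA hπ hn hcore (L := Kb) (A := A)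
  set hN := gaussNormBar A M hA hℓM with hNdef
  set b := evA (jqModC A) p with hb
  set a := comb (jqModC A) (fun i => castLS A u ^ (i : ℕ)) p' with ha
  have hb0 : pi πA b ≠ 0 := H.pi_evA_ne_zero hp
  have ha0 : pi πA a ≠ 0 := H.pi_comb_ne_zero hp'
  have hbF : iota A b ∈ modularFunctionFieldBar M := iota_evA_mem p
  have haF : iota A a ∈ modularFunctionFieldBar M := iota_comb_mem hcore p'
  have hjc : ((jF M : FN M) : LaurentSeries Kb) = iota A (jqModC A) := by
    show coeffEmb Kb (qExpand ℚ 1 jq) = _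
    rw [qExpand_one_apply, coeffEmb_jq, iota_jqModC]
  -- evaluation of polynomials
  have hev : ∀ (r : A[X]) (hr : iota A (evA (jqModC A) r) ∈ modularFunctionFieldBar M),
      φ ⟨iota A (evA (jqModC A) r), hr⟩ = ((hC.ev hj r : R'.O) : F') := by
    intro r hr
    have e : (⟨iota A (evA (jqModC A) r), hr⟩ : FN M) = aeval (jF M) (r.map A.subtype) := by
      apply Subtype.ext
      rw [← IntermediateField.aeval_coe, hjc]
      exact iota_evA _ _
    rw [e, hC.coe_ev, aeval_algHom_apply]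
  -- the unit `u`
  have huF : coeffEmb Kb (castLS ℚ u) ∈ modularFunctionFieldBar M :=
    coeffEmb_mem_laurentBaseChange Kb hcore.u_mem
  have hφu := map_mem_of_intOver hC φ hj hcore.core.integral huF
  set uF : FN M := ⟨coeffEmb Kb (castLS ℚ u), huF⟩ with huFdef
  have hcomb : (⟨iota A a, haF⟩ : FN M) =
      ∑ i, (⟨iota A (evA (jqModC A) (p' i)), iota_evA_mem (p' i)⟩ : FN M) * uF ^ (i : ℕ) := by
    apply Subtype.ext
    have h1 : ((∑ i, (⟨iota A (evA (jqModC A) (p' i)), iota_evA_mem (p' i)⟩ : FN M) *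
        uF ^ (i : ℕ) : FN M) : LaurentSeries Kb) =
        ∑ i, iota A (evA (jqModC A) (p' i)) * (coeffEmb Kb (castLS ℚ u)) ^ (i : ℕ) := by
      have h2 := map_sum (modularFunctionFieldBar M).val
        (fun i => (⟨iota A (evA (jqModC A) (p' i)), iota_evA_mem (p' i)⟩ : FN M) * uF ^ (i : ℕ))
        Finset.univ
      exact h2
    rw [h1]
    show iota A a = _
    rw [ha, comb, map_sum]
    refine Finset.sum_congr rfl fun i _ => ?_
    rw [map_mul, map_pow, iota_castLS, coeffEmb_castLS]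
  refine ⟨c, ⟨⟨iota A a, haF⟩, integral_mem_gO hN haF⟩, ⟨⟨iota A b, hbF⟩, integral_mem_gO hN hbF⟩,
    ?_, ?_, Subtype.ext hrel, ?_, ?_⟩
  · intro h0
    apply ha0
    have h1 : gRed hN ⟨⟨iota A a, haF⟩, integral_mem_gO hN haF⟩ = 0 := congrArg Subtype.val h0
    rwa [gRed_integral] at h1
  · intro h0
    apply hb0
    have h1 : gRed hN ⟨⟨iota A b, hbF⟩, integral_mem_gO hN hbF⟩ = 0 := congrArg Subtype.val h0
    rwa [gRed_integral] at h1
  · show φ (⟨iota A a, haF⟩ : FN M) ∈ R'.O
    rw [hcomb, map_sum]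
    refine sum_mem fun i _ => ?_
    rw [map_mul, map_pow, hev]
    exact mul_mem (Subtype.mem _) (pow_mem hφu _)
  · have e : φ (⟨iota A b, hbF⟩ : FN M) = ((hC.ev hj p : R'.O) : F') := hev p hbF
    refine ⟨by show φ (⟨iota A b, hbF⟩ : FN M) ∈ R'.O; rw [e]; exact Subtype.mem _, ?_⟩
    have e' : (⟨φ (⟨iota A b, hbF⟩ : FN M), by rw [e]; exact Subtype.mem _⟩ : R'.O) = hC.ev hj p :=
      Subtype.ext e
    show R'.red ⟨φ (⟨iota A b, hbF⟩ : FN M), _⟩ ≠ 0
    rw [e', hC.red_ev]
    exact fun h0 => hp (transcendental_iff.1 htr _ h0)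

end Forms

end Fermat.Agent.ML.At2
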