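import Fermat.Agent.RED.GalEq.Abstract

/-!
# ML / AT-2 / (E1) : reduction of a homomorphism of function fields, abstract form  [AUT9-RED]

`R`, `R'` constant reductions of `F / K`, `F' / K` with residue function fields `Fb / k`, `Fb' / k`, which agree on the constants (`ConstCompat`).
A `K`-homomorphism `φ : F → F'` for which every `x ≠ 0` of `F` has a "normal form" `x b = c a` (`a`, `b` units of `R.O`, `φ a ∈ R'.O`,
`φ b` a unit of `R'.O`) maps `R.O` to `R'.O` and induces `redHom : Fb →ₐ[k] Fb'`.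
-/

set_option autoImplicit false
set_option linter.unusedSectionVars false

noncomputable section

open AlgebraicCurve

namespace Fermat.Agent.ML.At2

open Fermat.Agent.RED

variable {K F F' k Fb Fb' : Type*} [Field K] [Field F] [Algebra K F] [Field F'] [Algebra K F']
  [Field k] [Field Fb] [Algebra k Fb] [Field Fb'] [Algebra k Fb']

/-- the two reductions agree on the constants. -/
def ConstCompat (R : RedData K F k Fb) (R' : RedData K F' k Fb') : Prop :=
  ∀ (c : K) (hc : algebraMap K F c ∈ R.O), ∃ hc' : algebraMap K F' c ∈ R'.O,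
    ∀ a : k, R.red ⟨_, hc⟩ = algebraMap k Fb a → R'.red ⟨_, hc'⟩ = algebraMap k Fb' a

/-- normal forms. -/
def HasForms (R : RedData K F k Fb) (R' : RedData K F' k Fb') (φ : F →ₐ[K] F') : Prop :=
  ∀ x : F, x ≠ 0 → ∃ (c : K) (a b : R.O), R.red a ≠ 0 ∧ R.red b ≠ 0 ∧
    x * (b : F) = algebraMap K F c * (a : F) ∧ φ (a : F) ∈ R'.O ∧
      ∃ hb : φ (b : F) ∈ R'.O, R'.red ⟨φ (b : F), hb⟩ ≠ 0

variable {R : RedData K F k Fb} {R' : RedData K F' k Fb'} {φ : F →ₐ[K] F'}

theorem HasForms.aux (hC : ConstCompat R R') (hF : HasForms R R' φ) {x : F} (hx : x ∈ R.O) :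
    ∃ hx' : φ x ∈ R'.O, R.red ⟨x, hx⟩ = 0 → R'.red ⟨φ x, hx'⟩ = 0 := by
  by_cases hx0 : x = 0
  · subst hx0
    refine ⟨by rw [map_zero]; exact zero_mem _, fun _ => ?_⟩
    have : (⟨φ 0, by rw [map_zero]; exact zero_mem _⟩ : R'.O) = 0 := Subtype.ext (map_zero φ)
    rw [this, map_zero]
  obtain ⟨c, a, b, ha, hb, hrel, hφa, hφb, hφb0⟩ := hF x hx0
  have ha0 : (a : F) ≠ 0 := by
    intro h
    apply ha
    have : a = 0 := Subtype.ext h
    rw [this, map_zero]
  have hai := R.inv_mem_of_red_ne_zero ha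
  have hc : algebraMap K F c = x * (b : F) * (a : F)⁻¹ := by
    rw [hrel, mul_assoc, mul_inv_cancel₀ ha0, mul_one]
  have hcO : algebraMap K F c ∈ R.O := by
    rw [hc]; exact mul_mem (mul_mem hx b.2) hai
  obtain ⟨hc', hcr⟩ := hC c hcO
  have hφb00 : φ (b : F) ≠ 0 := by
    intro h
    apply hφb0
    have : (⟨φ (b : F), hφb⟩ : R'.O) = 0 := Subtype.ext h
    rw [this, map_zero]
  have hbi := R'.inv_mem_of_red_ne_zero hφb0
  have hrel' : φ x * φ (b : F) = algebraMap K F' c * φ (a : F) := by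
    rw [← map_mul, hrel, map_mul, AlgHom.commutes]
  have hφx : φ x = algebraMap K F' c * φ (a : F) * (φ (b : F))⁻¹ := by
    rw [← hrel', mul_assoc, mul_inv_cancel₀ hφb00, mul_one]
  have hx' : φ x ∈ R'.O := by
    rw [hφx]; exact mul_mem (mul_mem hc' hφa) hbi
  refine ⟨hx', fun h0 => ?_⟩
  have e1 : (⟨algebraMap K F c, hcO⟩ : R.O) * a = ⟨x, hx⟩ * b := Subtype.ext hrel.symm
  have e2 : R.red ⟨algebraMap K F c, hcO⟩ = algebraMap k Fb 0 := by
    have := congrArg R.red e1
    rw [map_mul, map_mul, h0, zero_mul] at this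
    rw [map_zero]
    exact (mul_eq_zero.1 this).resolve_right ha
  have e3 := hcr 0 e2
  have e4 : (⟨φ x, hx'⟩ : R'.O) * ⟨φ (b : F), hφb⟩ =
      ⟨algebraMap K F' c, hc'⟩ * ⟨φ (a : F), hφa⟩ := Subtype.ext hrel'
  have e5 := congrArg R'.red e4
  rw [map_mul, map_mul, e3, map_zero, zero_mul] at e5
  exact (mul_eq_zero.1 e5).resolve_right hφb0

theorem HasForms.map_mem (hC : ConstCompat R R') (hF : HasForms R R' φ) {x : F} (hx : x ∈ R.O) :
    φ x ∈ R'.O := (hF.aux hC hx).1

/-- `φ` on the valuation rings. -/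
def HasForms.mapO (hC : ConstCompat R R') (hF : HasForms R R' φ) : R.O →+* R'.O where
  toFun x := ⟨φ (x : F), hF.map_mem hC x.2⟩
  map_one' := Subtype.ext (map_one φ)
  map_mul' _ _ := Subtype.ext (map_mul φ _ _)
  map_zero' := Subtype.ext (map_zero φ)
  map_add' _ _ := Subtype.ext (map_add φ _ _)

theorem HasForms.ker_le (hC : ConstCompat R R') (hF : HasForms R R' φ) :
    RingHom.ker R.red ≤ RingHom.ker (R'.red.comp (hF.mapO hC)) := by
  intro x hx
  rw [RingHom.mem_ker] at hx ⊢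
  exact (hF.aux hC x.2).2 hx

/-- the reduction of `φ`, as a ring homomorphism. -/
def HasForms.redRingHom (hC : ConstCompat R R') (hF : HasForms R R' φ) : Fb →+* Fb' :=
  RingHom.liftOfSurjective R.red R.red_surjective ⟨R'.red.comp (hF.mapO hC), hF.ker_le hC⟩

theorem HasForms.redRingHom_red (hC : ConstCompat R R') (hF : HasForms R R' φ) (x : R.O) :
    hF.redRingHom hC (R.red x) = R'.red ⟨φ (x : F), hF.map_mem hC x.2⟩ :=
  RingHom.liftOfRightInverse_comp_apply _ _ _ _ x

/-- **the reduction of `φ`.** -/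
def HasForms.redHom (hC : ConstCompat R R') (hF : HasForms R R' φ) : Fb →ₐ[k] Fb' :=
  { hF.redRingHom hC with
    commutes' := fun a => by
      obtain ⟨c, hc, e⟩ := R.exists_const a
      obtain ⟨hc', h⟩ := hC c hc
      show hF.redRingHom hC (algebraMap k Fb a) = _
      rw [← e, hF.redRingHom_red hC, ← h a e]
      exact congrArg R'.red (Subtype.ext (AlgHom.commutes φ c)) }

theorem HasForms.redHom_red (hC : ConstCompat R R') (hF : HasForms R R' φ) {x : F}
    (hx : x ∈ R.O) :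
    hF.redHom hC (R.red ⟨x, hx⟩) = R'.red ⟨φ x, hF.map_mem hC hx⟩ :=
  hF.redRingHom_red hC ⟨x, hx⟩

/-- uniqueness of the reduction. -/
theorem HasForms.redHom_unique (hC : ConstCompat R R') (hF : HasForms R R' φ)
    (ψ : Fb →+* Fb')
    (hψ : ∀ (x : F) (hx : x ∈ R.O), ψ (R.red ⟨x, hx⟩) = R'.red ⟨φ x, hF.map_mem hC hx⟩)
    (w : Fb) : ψ w = hF.redHom hC w := by
  obtain ⟨x, rfl⟩ := R.red_surjective w
  rw [hψ x.1 x.2, ← hF.redHom_red hC x.2]

end Fermat.Agent.ML.At2
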